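import Fermat.Statements.S09

/-!
# S09 from S10, S11, S12, S13 (pure wiring)

`GaloisRepIsIrreducible` for the Frey curve follows from: (S13) reducible implies a cofixed line;
(S10, S11, S12) no cofixed line for `p ∈ {5, 7, 13}`, `p = 11`, `17 ≤ p`.
-/

set_option autoImplicit false
open WeierstrassCurve WeierstrassCurve.Affine WeierstrassCurve.Affine.Point
open FreyPackage

namespace Fermat.Agent.S09.Reduce

/-- Pure wiring: S09 from the four cofixed-line statements. -/
theorem irreducible_of_cofixed_statements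
    (h13 : ∀ P : FreyPackage,
      ¬ GaloisRepIsIrreducible (K := AlgebraicClosure ℚ) ℚ P.freyCurve P.p →
        HasGaloisStableCofixedLine (K := AlgebraicClosure ℚ) ℚ P.freyCurve P.p)
    (h10 : ∀ P : FreyPackage, (P.p = 5 ∨ P.p = 7 ∨ P.p = 13) →
      ¬ HasGaloisStableCofixedLine (K := AlgebraicClosure ℚ) ℚ P.freyCurve P.p)
    (h11 : ∀ P : FreyPackage, P.p = 11 →
      ¬ HasGaloisStableCofixedLine (K := AlgebraicClosure ℚ) ℚ P.freyCurve P.p)
    (h12 : ∀ P : FreyPackage, 17 ≤ P.p →
      ¬ HasGaloisStableCofixedLine (K := AlgebraicClosure ℚ) ℚ P.freyCurve P.p)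
    (P : FreyPackage) :
    GaloisRepIsIrreducible (K := AlgebraicClosure ℚ) ℚ P.freyCurve P.p := by
  by_contra hred
  have hline := h13 P hred
  have hp5 := P.hp5
  have hpp := P.pp
  by_cases h17 : 17 ≤ P.p
  · exact h12 P h17 hline
  · have hlt : P.p < 17 := by omega
    have hcases : P.p = 5 ∨ P.p = 7 ∨ P.p = 11 ∨ P.p = 13 := by
      have : ∀ n : ℕ, 5 ≤ n → n < 17 → n.Prime → n = 5 ∨ n = 7 ∨ n = 11 ∨ n = 13 := by
        intro n h1 h2 h3
        interval_cases n <;> simp_all <;> revert h3 <;> decide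
      exact this P.p hp5 hlt hpp
    rcases hcases with h | h | h | h
    · exact h10 P (Or.inl h) hline
    · exact h10 P (Or.inr (Or.inl h)) hline
    · exact h11 P h hline
    · exact h10 P (Or.inr (Or.inr h)) hline

end Fermat.Agent.S09.Reduce
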